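/-
S59lib / StrictFam / StrictFam  (helper3) — Project I, item (Q3).

**The STRICT-ORDINARY twins of `S43lib/B3/FlatFam.tw_relTan_flatFam` and `S43lib/B3/Surj.tw_surj_flatFam`**
(helper4's statements and proofs, with `IsFlatAt p` replaced by `IsStrictOrdinaryAt p`): for the family

  `𝒟soF S' ρ := (strict ordinary at p, unramified outside S', det cyclotomic, unipotent on inertia at Smin ∖ {p}) ∧ E S' ρ`

(`E S'` ANY extra family of conditions stable under surjective base change to `k[ε]` and under equivalence over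
`k[ε]`) the `T`-relaxed tangent space at Taylor–Wiles level is bounded (`tw_relTan_strictFam`), and the `T`-relaxed
deformation rings are generated over the tame coordinates at `T` by `r − 3|T|` further elements
(`tw_surj_strictFam`).  Local inputs: `S56lib.Dict.hasLocalCond_so_p`, `S56lib.Main.hasLocalCond_so_q`.
-/
import Mathlib
import Fermat.Agent.S43lib.B3.Surj
import Fermat.Agent.S56lib.Dict.LocalPkgSO

set_option autoImplicit false
set_option linter.unusedSectionVars false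
set_option linter.style.haveILetI false

noncomputable section

namespace Fermat.Agent.S59lib.StrictFam

open IsLocalRing Polynomial Fermat.Agent.TeamA Fermat.Agent.TeamA.Rep Fermat.Agent.S55lib
  Fermat.Agent.S56lib.Dict Fermat.Agent.S56lib.PT9a Fermat.Agent.S56lib.TWSel
  Fermat.Agent.S56lib.Main Fermat.Agent.S56lib ExtCitation Fermat.Agent.S43lib.B3

attribute [local instance] dualNumberAlgebra

section

variable {𝒪 : Type} [CommRing 𝒪] [IsDomain 𝒪] [IsDiscreteValuationRing 𝒪]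
  [IsAdicComplete (maximalIdeal 𝒪) 𝒪] [Finite (ResidueField 𝒪)]

/-- the strict-ordinary family of S56 with an extra family of conditions `E S'` -/
def 𝒟soF (𝒪 : Type) [CommRing 𝒪] (p : ℕ) (Smin : Finset ℕ)
    (E : Finset ℕ → ∀ ⦃A : Type⦄ [CommRing A] [IsLocalRing A] [Algebra 𝒪 A], GaloisRepAdic A → Prop)
    (S' : Finset ℕ) :
    ∀ ⦃A : Type⦄ [CommRing A] [IsLocalRing A] [Algebra 𝒪 A], GaloisRepAdic A → Prop :=
  fun _A _ _ _ ρ => 𝒟so 𝒪 p Smin S' ρ ∧ E S' ρ

/-- **(B3), strict-ordinary family with an extra family of conditions.** -/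
theorem tw_relTan_strictFam
    (p : ℕ) [hp : Fact p.Prime] (hp2 : p ≠ 2) (hp𝒪 : (p : 𝒪) ∈ maximalIdeal 𝒪)
    (ρbar : ResidualGaloisRep (ResidueField 𝒪))
    (habs : ρbar.IsAbsolutelyIrreducible)
    (hdet : (GaloisRepAdic.ofResidualGaloisRep ρbar).DetIsCyclotomic p)
    (hsplit : ∀ σ : AlgebraicClosure ℚ ≃ₐ[ℚ] AlgebraicClosure ℚ,
      ∃ α β : ResidueField 𝒪, LinearMap.charpoly (ρbar.ρ σ) = (X - C α) * (X - C β))
    (hTW : ∀ (K : Type) [Field K] [Algebra (ResidueField 𝒪) K]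
      (G : Subgroup (AlgebraicClosure ℚ ≃ₐ[ℚ] AlgebraicClosure ℚ)), G.index = 2 →
      ∀ V : Submodule K (ρbar.baseChange K).V,
        (∀ σ ∈ G, ∀ x ∈ V, (ρbar.baseChange K).ρ σ x ∈ V) → V = ⊥ ∨ V = ⊤)
    (S Smin T : Finset ℕ) (hpSmin : p ∈ Smin) (hSmin : Smin ⊆ S) (hTS : T ⊆ S)
    (hTdisj : Disjoint Smin T)
    (hmin : ∀ q : ℕ, q.Prime → q ≠ p → (q ∈ Smin ↔ ¬ ρbar.IsUnramifiedAt q))
    (bbar : Module.Basis (Fin 2) (ResidueField 𝒪) ρbar.V)
    (hscal : ∀ v : Nat.Primes, (v : ℕ) ∈ T → ∀ g : Gloc v, ∃ a : ResidueField 𝒪,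
      resHom ρbar bbar (rloc v g) = a • (1 : Matrix (Fin 2) (Fin 2) (ResidueField 𝒪)))
    (E : Finset ℕ → ∀ ⦃A : Type⦄ [CommRing A] [IsLocalRing A] [Algebra 𝒪 A], GaloisRepAdic A → Prop)
    (hEbc : ∀ (S' : Finset ℕ) (DQ : GaloisRep.DeformationRingData 𝒪 ρbar (𝒟soF 𝒪 p Smin E S'))
      (φ : DQ.R →ₐ[𝒪] DualNumber (ResidueField 𝒪)), Function.Surjective φ → E S' (tanRep DQ φ))
    (hEiso : ∀ (S' : Finset ℕ) (ρ ρ' : GaloisRepAdic (DualNumber (ResidueField 𝒪))),
      ρ.IsEquiv ρ' → E S' ρ → E S' ρ') :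
    ∃ r : ℕ, ∀ n : ℕ, ∃ qv : Fin r → ℕ, Function.Injective qv ∧
      (∀ i, (qv i).Prime ∧ qv i ∉ S ∧ p ^ (n + 1) ∣ qv i - 1) ∧
      (∀ i, ∀ P : ValuationSubring (AlgebraicClosure ℚ), P.LiesOverPrime (qv i) →
        ∀ φ : AlgebraicClosure ℚ ≃ₐ[ℚ] AlgebraicClosure ℚ, P.IsFrobeniusAt φ (qv i) →
          ∃ α β : ResidueField 𝒪, α ≠ β ∧
            LinearMap.charpoly (ρbar.ρ φ) = (X - C α) * (X - C β)) ∧
      ∀ (DQ : GaloisRep.DeformationRingData 𝒪 ρbar
          (𝒟soF 𝒪 p Smin E (Smin ∪ T ∪ Finset.univ.image qv)))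
        (B : Based DQ), B.bbar = bbar →
        Finite (relTan B (primesIn T)) ∧
        Nat.card (relTan B (primesIn T)) * Nat.card (ResidueField 𝒪) ^ (3 * (primesIn T).card) ≤
          Nat.card (ResidueField 𝒪) ^ r := by
  classical
  haveI hCharP : CharP (ResidueField 𝒪) p := charP_residueField p hp𝒪
  refine half_of_rel p hp2 ρbar bbar hsplit S Smin T hpSmin hSmin hTS hTdisj hmin hscal
    (𝒟soF 𝒪 p Smin E) ?hbc ?hiso ?hunr ?hlocp ?hlocq ?hgood complexConjugation ?hN3 ?hN8 ?hN9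
    ?hN4 ?hN5
  case hbc =>
    intro S' DQ φ hs
    obtain ⟨⟨⟨h1, h2, h3⟩, h4⟩, -⟩ := DQ.isOfType
    exact ⟨⟨⟨detIsCyclotomic_baseChangeAlong _ _ _ h1,
      isStrictOrdinaryAt_baseChangeAlong _ _ _ h2,
      fun q hq hqS => isUnramifiedAt_baseChangeAlong _ _ _ (h3 q hq hqS)⟩,
      fun q hq hqp hne => isUnipotentOnInertiaAt_baseChangeAlong _ _ _ (h4 q hq hqp hne)⟩,
      hEbc S' DQ φ hs⟩
  case hiso =>
    intro S' ρ ρ' hE h
    obtain ⟨e⟩ := hE
    obtain ⟨⟨⟨h1, h2, h3⟩, h4⟩, h5⟩ := h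
    exact ⟨⟨⟨detIsCyclotomic_of_equiv e h1, isStrictOrdinaryAt_of_equiv e h2,
      fun q hq hqS => isUnramifiedAt_of_equiv e (h3 q hq hqS)⟩,
      fun q hq hqp hne => isUnipotentOnInertiaAt_of_equiv e (h4 q hq hqp hne)⟩,
      hEiso S' ρ ρ' ⟨e⟩ h5⟩
  case hunr =>
    intro S' SP hSP c hc
    refine isUnrCocycle_of_isSelmerCocycle_strictOrdinary p Smin S' SP hSP ?_
    obtain ⟨hcc, hcs, h0 | hd⟩ := hc
    · exact ⟨hcc, hcs, Or.inl h0⟩
    · exact ⟨hcc, hcs, Or.inr hd.1⟩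
  case hlocp =>
    intro S'
    exact (hasLocalCond_so_p p hp2 ρbar bbar Smin S').mono le_rfl (fun ρ h => h.1)
  case hlocq =>
    intro S' q hqS hqp
    exact (hasLocalCond_so_q p bbar hp2 Smin hpSmin hmin S' q hqS hqp).mono le_rfl (fun ρ h => h.1)
  case hgood =>
    exact fun n => Fermat.Agent.S56lib.TW.hgood_s56 p ρbar bbar hp2 habs hdet hsplit hTW
      (primesIn (Smin ∪ T)) n
  case hN3 => exact fun SP hpSP hM => hN3_adRep p bbar hp2 SP hpSP hM
  case hN8 => exact card_le_card_fixed_complexConjugation p ρbar bbar hdet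
  case hN9 => exact card_invariants_adRep p bbar hp2 habs
  case hN4 => exact hN4_adRep p bbar hp2 Smin hpSmin hmin
  case hN5 => exact fun q hq => hN5_adRep p bbar hp2 Smin hpSmin hmin q hq


/-- **(B3-SURJ), strict-ordinary family with an extra family of conditions.** -/
theorem tw_surj_strictFam
    (p : ℕ) [hp : Fact p.Prime] (hp2 : p ≠ 2) (hp𝒪 : (p : 𝒪) ∈ maximalIdeal 𝒪)
    (ρbar : ResidualGaloisRep (ResidueField 𝒪))
    (habs : ρbar.IsAbsolutelyIrreducible)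
    (hdet : (GaloisRepAdic.ofResidualGaloisRep ρbar).DetIsCyclotomic p)
    (hsplit : ∀ σ : AlgebraicClosure ℚ ≃ₐ[ℚ] AlgebraicClosure ℚ,
      ∃ α β : ResidueField 𝒪, LinearMap.charpoly (ρbar.ρ σ) = (X - C α) * (X - C β))
    (hTW : ∀ (K : Type) [Field K] [Algebra (ResidueField 𝒪) K]
      (G : Subgroup (AlgebraicClosure ℚ ≃ₐ[ℚ] AlgebraicClosure ℚ)), G.index = 2 →
      ∀ V : Submodule K (ρbar.baseChange K).V,
        (∀ σ ∈ G, ∀ x ∈ V, (ρbar.baseChange K).ρ σ x ∈ V) → V = ⊥ ∨ V = ⊤)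
    (S Smin T : Finset ℕ) (hpSmin : p ∈ Smin) (hSmin : Smin ⊆ S) (hTS : T ⊆ S)
    (hTdisj : Disjoint Smin T)
    (hmin : ∀ q : ℕ, q.Prime → q ≠ p → (q ∈ Smin ↔ ¬ ρbar.IsUnramifiedAt q))
    (bbar : Module.Basis (Fin 2) (ResidueField 𝒪) ρbar.V)
    (hscal : ∀ v : Nat.Primes, (v : ℕ) ∈ T → ∀ g : Gloc v, ∃ a : ResidueField 𝒪,
      resHom ρbar bbar (rloc v g) = a • (1 : Matrix (Fin 2) (Fin 2) (ResidueField 𝒪)))
    (E : Finset ℕ → ∀ ⦃A : Type⦄ [CommRing A] [IsLocalRing A] [Algebra 𝒪 A], GaloisRepAdic A → Prop)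
    (hEbc : ∀ (S' : Finset ℕ) (DQ : GaloisRep.DeformationRingData 𝒪 ρbar (𝒟soF 𝒪 p Smin E S'))
      (φ : DQ.R →ₐ[𝒪] DualNumber (ResidueField 𝒪)), Function.Surjective φ → E S' (tanRep DQ φ))
    (hEiso : ∀ (S' : Finset ℕ) (ρ ρ' : GaloisRepAdic (DualNumber (ResidueField 𝒪))),
      ρ.IsEquiv ρ' → E S' ρ → E S' ρ')
    (φ₀ : ↥(primesIn T) → 𝒪)
    (hφ₀ : ∀ v : ↥(primesIn T), resHom ρbar bbar (globFrobAt (v : Nat.Primes)) =
      residue 𝒪 (φ₀ v) • (1 : Matrix (Fin 2) (Fin 2) (ResidueField 𝒪))) :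
    ∃ r : ℕ, ∀ n : ℕ, ∃ qv : Fin r → ℕ, Function.Injective qv ∧
      (∀ i, (qv i).Prime ∧ qv i ∉ S ∧ p ^ (n + 1) ∣ qv i - 1) ∧
      (∀ i, ∀ P : ValuationSubring (AlgebraicClosure ℚ), P.LiesOverPrime (qv i) →
        ∀ φ : AlgebraicClosure ℚ ≃ₐ[ℚ] AlgebraicClosure ℚ, P.IsFrobeniusAt φ (qv i) →
          ∃ α β : ResidueField 𝒪, α ≠ β ∧
            LinearMap.charpoly (ρbar.ρ φ) = (X - C α) * (X - C β)) ∧
      ∀ (DQ : GaloisRep.DeformationRingData 𝒪 ρbar
          (𝒟soF 𝒪 p Smin E (Smin ∪ T ∪ Finset.univ.image qv)))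
        (B : Based DQ), B.bbar = bbar →
        3 * (primesIn T).card ≤ r ∧
        ∃ γ : MvPowerSeries ((↥(primesIn T) × Bool × Fin 2 × Fin 2) ⊕
            Fin (r - 3 * (primesIn T).card)) 𝒪 →ₐ[𝒪] DQ.R,
          Function.Surjective γ ∧
          (∀ (v : ↥(primesIn T)) (i j : Fin 2),
            γ (MvPowerSeries.X (Sum.inl (v, false, i, j))) =
              matOf DQ.ρ B.bR (globFrobAt (v : Nat.Primes)) i j -
                (if i = j then algebraMap 𝒪 DQ.R (φ₀ v) else 0)) ∧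
          (∀ (v : ↥(primesIn T)) (i j : Fin 2),
            γ (MvPowerSeries.X (Sum.inl (v, true, i, j))) =
              matOf DQ.ρ B.bR (globGenAt (v : Nat.Primes) p) i j - (if i = j then 1 else 0)) := by
  classical
  haveI hCharP : CharP (ResidueField 𝒪) p := charP_residueField p hp𝒪
  obtain ⟨r, hr⟩ := tw_relTan_strictFam p hp2 hp𝒪 ρbar habs hdet hsplit hTW S Smin T hpSmin hSmin hTS
    hTdisj hmin bbar hscal E hEbc hEiso
  refine ⟨r, fun n => ?_⟩
  obtain ⟨qv, hinj, hqv, hfrob, hcount⟩ := hr n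
  refine ⟨qv, hinj, hqv, hfrob, fun DQ B hB => ?_⟩
  obtain ⟨hfin, hcard⟩ := hcount DQ B hB
  -- facts about `v ∈ T`
  have hvT : ∀ v : ↥(primesIn T), ((v : Nat.Primes) : ℕ) ∈ T := fun v => mem_primesIn.1 v.2
  have hvp : ∀ v : ↥(primesIn T), p ≠ ((v : Nat.Primes) : ℕ) := by
    intro v h
    exact (Finset.disjoint_left.1 hTdisj hpSmin) (h ▸ hvT v)
  have hur : ∀ v : ↥(primesIn T), ∀ s ∈ (primeLocalPlace (v : Nat.Primes)).inertiaSubgroupIn ℚ,
      B.rb s = 1 := by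
    intro v s hs
    have hnot : ((v : Nat.Primes) : ℕ) ∉ Smin := fun h => Finset.disjoint_left.1 hTdisj h (hvT v)
    have hunr : ρbar.IsUnramifiedAt ((v : Nat.Primes) : ℕ) := by
      by_contra hc
      exact hnot ((hmin _ (v : Nat.Primes).2 (fun h => hvp v h.symm)).2 hc)
    rw [Dict.resHom_apply, matOfRes_eq_one_iff]
    exact hunr _ (primeLocalPlace_liesOverPrime (v : Nat.Primes)) s hs
  -- the tame coordinates lie in the maximal ideal
  have hx₀ : ∀ s, tameCoord B p φ₀ s ∈ maximalIdeal DQ.R := by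
    rintro ⟨v, b, i, j⟩
    cases b
    · change matOf DQ.ρ B.bR (globFrobAt (v : Nat.Primes)) i j -
        (if i = j then algebraMap 𝒪 DQ.R (φ₀ v) else 0) ∈ maximalIdeal DQ.R
      have hrb : B.rb (globFrobAt (v : Nat.Primes)) i j =
          residue 𝒪 (if i = j then φ₀ v else 0) := by
        change resHom ρbar B.bbar _ i j = _
        rw [hB, hφ₀ v, Matrix.smul_apply, Matrix.one_apply, smul_eq_mul]
        split_ifs <;> simp
      have := Based_entry_sub_mem B (globFrobAt (v : Nat.Primes)) i j _ hrb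
      rwa [apply_ite (algebraMap 𝒪 DQ.R), _root_.map_zero] at this
    · change matOf DQ.ρ B.bR (globGenAt (v : Nat.Primes) p) i j - (if i = j then 1 else 0) ∈
        maximalIdeal DQ.R
      have hrb : B.rb (globGenAt (v : Nat.Primes) p) i j =
          residue 𝒪 (if i = j then 1 else 0) := by
        rw [hur v _ (globGenAt_mem_inertia (v : Nat.Primes) p), Matrix.one_apply]
        split_ifs <;> simp
      have := Based_entry_sub_mem B (globGenAt (v : Nat.Primes) p) i j _ hrb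
      rwa [apply_ite (algebraMap 𝒪 DQ.R), _root_.map_zero, _root_.map_one] at this
  -- tangent vectors killing the tame coordinates lie in `relTan`
  have hW : ∀ φ : DQ.R →ₐ[𝒪] DualNumber (ResidueField 𝒪),
      (∀ s, φ (tameCoord B p φ₀ s) = 0) → φ ∈ relTan B (primesIn T) := by
    intro φ hφ v hv g
    have hΦ : B.tanCocycle φ (globFrobAt v) = 0 := by
      apply Based_tanCocycle_eq_zero
      intro i j
      have h1 := hφ (⟨v, hv⟩, false, i, j)
      change φ (matOf DQ.ρ B.bR (globFrobAt v) i j -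
        (if i = j then algebraMap 𝒪 DQ.R (φ₀ ⟨v, hv⟩) else 0)) = 0 at h1
      rw [map_sub, sub_eq_zero] at h1
      rw [h1]
      split_ifs
      · rw [AlgHom.commutes, dualNumberAlgebra_algebraMap_apply, TrivSqZeroExt.snd_inl]
      · rw [_root_.map_zero, TrivSqZeroExt.snd_zero]
    have hSig : B.tanCocycle φ (globGenAt v p) = 0 := by
      apply Based_tanCocycle_eq_zero
      intro i j
      have h1 := hφ (⟨v, hv⟩, true, i, j)
      change φ (matOf DQ.ρ B.bR (globGenAt v p) i j - (if i = j then 1 else 0)) = 0 at h1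
      rw [map_sub, sub_eq_zero] at h1
      rw [h1]
      split_ifs
      · rw [_root_.map_one, TrivSqZeroExt.snd_one]
      · rw [_root_.map_zero, TrivSqZeroExt.snd_zero]
    exact cocycle_vanishes_of_tame p B.rb (B.tanCocycle φ) (B.isCocycle_tanCocycle φ)
      (B.isSmoothCochain_tanCocycle φ) v (hvp ⟨v, hv⟩) (hur ⟨v, hv⟩) hΦ hSig g
  -- the count
  haveI := hfin
  have hne : Nonempty (relTan B (primesIn T)) := by
    refine ⟨⟨trivTangent, fun v _ g => ?_⟩⟩
    rw [B.tanCocycle_trivTangent]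
    rfl
  have hpos : 0 < Nat.card (relTan B (primesIn T)) := Nat.card_pos
  have hκ : 1 < Nat.card (ResidueField 𝒪) := Finite.one_lt_card
  have hle : 3 * (primesIn T).card ≤ r := by
    have h1 : Nat.card (ResidueField 𝒪) ^ (3 * (primesIn T).card) ≤ Nat.card (ResidueField 𝒪) ^ r :=
      le_trans (Nat.le_mul_of_pos_left _ hpos) hcard
    exact (Nat.pow_le_pow_iff_right hκ).1 h1
  have hcard' : Nat.card (relTan B (primesIn T)) ≤
      Nat.card (ResidueField 𝒪) ^ (r - 3 * (primesIn T).card) := by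
    have h2 : Nat.card (ResidueField 𝒪) ^ r = Nat.card (ResidueField 𝒪) ^ (r - 3 * (primesIn T).card) *
        Nat.card (ResidueField 𝒪) ^ (3 * (primesIn T).card) := by
      rw [← pow_add, Nat.sub_add_cancel hle]
    rw [h2] at hcard
    exact Nat.le_of_mul_le_mul_right hcard (pow_pos (by omega) _)
  refine ⟨hle, ?_⟩
  obtain ⟨γ, hγs, hγ⟩ := exists_surjective_rel DQ.residue_surjective (tameCoord B p φ₀) hx₀
    (r - 3 * (primesIn T).card) (relTan B (primesIn T)) (Set.toFinite _) hW hcard'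
  exact ⟨γ, hγs, fun v i j => hγ (v, false, i, j), fun v i j => hγ (v, true, i, j)⟩

end

end Fermat.Agent.S59lib.StrictFam
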