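/-
S59lib / StrictFam / GS  (helper3) — Project I.

**The Galois side `Hub.GSFor` for the strict-ordinary type `𝒟so` and for the flat type `𝒟fl`**: from a family of
trace rings `F S' : Hub.TrRingG 𝒪 ρbar p (𝒟 𝒪 S')` to the Taylor–Wiles sets and the presentations
  `γ : 𝒪⟦(T × Bool × Fin 2 × Fin 2) ⊕ Fin (r − 3|T|)⟧ ↠ R_{S ∪ Q_n}`
of `tw_surj_strictFam` / `tw_surj_flatFam`.  (The generic version of `S43lib/Mod4/Gal`: for the TAUTOLOGICAL family
of conditions `E S' ρ_A := "ρ_A is, in suitable bases, the image of ρ_{S'} under a local map R_{S'} → A"` the pair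
`(R_{S'}, ρ_{S'})` IS a `DeformationRingData`.)
-/
import Mathlib
import Fermat.Agent.S59lib.Hub.Ctx
import Fermat.Agent.S59lib.StrictFam.StrictFam

set_option autoImplicit false
set_option linter.unusedSectionVars false
set_option linter.style.haveILetI false

noncomputable section

namespace Fermat.Agent.S59lib.StrictFam

open IsLocalRing Polynomial Fermat.Agent.TeamA Fermat.Agent.TeamA.Rep Fermat.Agent.S55lib
  Fermat.Agent.S56lib.Dict Fermat.Agent.S56lib.PT9a Fermat.Agent.S56lib.TWSel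
  Fermat.Agent.S56lib.Main Fermat.Agent.S56lib ExtCitation Fermat.Agent.S43lib.B3
  Fermat.Agent.S59lib.Hub Fermat.Agent.S43lib.Mod4

attribute [local instance] dualNumberAlgebra

/-- `G_ℚ` -/
local notation "GQ" => (AlgebraicClosure ℚ ≃ₐ[ℚ] AlgebraicClosure ℚ)

variable {𝒪 : Type} [CommRing 𝒪] [IsDomain 𝒪] [IsDiscreteValuationRing 𝒪]
  [IsAdicComplete (maximalIdeal 𝒪) 𝒪]

variable {ρbar : ResidualGaloisRep (ResidueField 𝒪)} {p : ℕ}
  {𝒟S : Finset ℕ → ∀ ⦃A : Type⦄ [CommRing A] [IsLocalRing A] [Algebra 𝒪 A], GaloisRepAdic A → Prop}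

/-- The tautological family of conditions attached to a family of trace rings indexed by the
"good" ramification sets (`False` at the others). -/
def tautEG {good : Finset ℕ → Prop} (F : ∀ S' : Finset ℕ, good S' → TrRingG 𝒪 ρbar p (𝒟S S'))
    (S' : Finset ℕ) :
    ∀ ⦃A : Type⦄ [CommRing A] [IsLocalRing A] [Algebra 𝒪 A], GaloisRepAdic A → Prop :=
  fun A _ _ _ ρA => ∃ (hS' : good S') (f : (F S' hS').R →ₐ[𝒪] A)
    (_ : IsLocalHom (f : (F S' hS').R →+* A))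
    (b : Module.Basis (Fin 2) (F S' hS').R (F S' hS').ρ.V) (bA : Module.Basis (Fin 2) A ρA.V),
    ∀ g, matOf ρA bA g = (matOf (F S' hS').ρ b g).map f

variable (habs : ρbar.IsAbsolutelyIrreducible) {good : Finset ℕ → Prop}
  (F : ∀ S' : Finset ℕ, good S' → TrRingG 𝒪 ρbar p (𝒟S S'))

/-- **`(R_{S'}, ρ_{S'})` is a universal deformation for the tautological family.** -/
def dqG (S' : Finset ℕ) (hS' : good S') :
    GaloisRep.DeformationRingData 𝒪 ρbar (fun A _ _ _ ρ => 𝒟S S' ρ ∧ tautEG F S' ρ) where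
  R := (F S' hS').R
  residue_surjective := (F S' hS').residue_surjective
  absIrr := habs
  ρ := (F S' hS').ρ
  isOfType := by
    refine ⟨(F S' hS').isType, hS', AlgHom.id 𝒪 _, ?_, ?_⟩
    · exact ⟨fun a ha => ha⟩
    · obtain ⟨b⟩ : Nonempty (Module.Basis (Fin 2) (F S' hS').R (F S' hS').ρ.V) :=
        ⟨Module.finBasisOfFinrankEq _ _ (F S' hS').ρ.finrank_eq⟩
      refine ⟨b, b, fun g => ?_⟩
      ext i j
      rfl
  residual_isEquiv := (F S' hS').residual_isEquiv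
  universal := by
    intro A _ _ _ _ _ _ _ ρA hρA _
    obtain ⟨-, _, f, hf, b, bA, hfb⟩ := hρA
    refine ⟨f, ⟨hf, ?_⟩, ?_⟩
    · refine isEquiv_of_matOf_eq _ _
        (bcBasis (f : (F S' hS').R →+* A) hf (F S' hS').ρ b) bA fun g => ?_
      rw [matOf_baseChangeAlong, hfb]
      rfl
    · rintro φ' ⟨hφ', hE⟩
      refine (F S' hS').trace_gen A φ' f fun σ => ?_
      obtain ⟨M, M', h1, h2, hc⟩ := exists_conj_of_isEquiv _ _
        (bcBasis (φ' : (F S' hS').R →+* A) hφ' (F S' hS').ρ b) bA hE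
      have e1 := trace_eq_of_conj h1 h2 (hc σ)
      rw [matOf_baseChangeAlong, hfb, trace_map] at e1
      have e2 : ((matOf (F S' hS').ρ b σ).map f).trace = f (matOf (F S' hS').ρ b σ).trace :=
        trace_map (f : (F S' hS').R →+* A) _
      rw [trace_eq_trace_matOf (F S' hS').ρ b σ]
      exact e1.trans e2

omit habs in
/-- The tautological family is stable under base change to `k[ε]`. -/
theorem tautEG_bc (S' : Finset ℕ)
    (DQ : GaloisRep.DeformationRingData 𝒪 ρbar (fun A _ _ _ ρ => 𝒟S S' ρ ∧ tautEG F S' ρ))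
    (φ : DQ.R →ₐ[𝒪] DualNumber (ResidueField 𝒪)) : tautEG F S' (tanRep DQ φ) := by
  obtain ⟨-, hS', f, hf, b, bDQ, h⟩ := DQ.isOfType
  haveI := hf
  haveI : IsLocalHom (φ : DQ.R →+* DualNumber (ResidueField 𝒪)) := isLocalHom_of_isTestAlg φ
  refine ⟨hS', φ.comp f, ?_, b, bcBasis (φ : DQ.R →+* DualNumber (ResidueField 𝒪))
    (isLocalHom_of_isTestAlg φ) DQ.ρ bDQ, fun g => ?_⟩
  · exact RingHom.isLocalHom_comp (φ : DQ.R →+* DualNumber (ResidueField 𝒪))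
      (f : (F S' hS').R →+* DQ.R)
  · have h1 := matOf_baseChangeAlong (φ : DQ.R →+* DualNumber (ResidueField 𝒪))
      (isLocalHom_of_isTestAlg φ) DQ.ρ bDQ g
    unfold tanRep
    rw [h1, h g, Matrix.map_map]
    rfl

omit habs in
/-- The tautological family is stable under equivalence. -/
theorem tautEG_iso (S' : Finset ℕ) {A : Type} [CommRing A] [IsLocalRing A] [Algebra 𝒪 A]
    (ρ ρ' : GaloisRepAdic A) (he : ρ.IsEquiv ρ') (h : tautEG F S' ρ) : tautEG F S' ρ' := by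
  obtain ⟨hS', f, hf, b, bA, hfb⟩ := h
  obtain ⟨e⟩ := he
  refine ⟨hS', f, hf, b, bA.map e.toLinearEquiv, fun g => ?_⟩
  rw [← hfb g]
  ext i j
  unfold matOf
  rw [LinearMap.toMatrix_apply, LinearMap.toMatrix_apply, Module.Basis.map_apply,
    Module.Basis.map_repr, LinearEquiv.trans_apply, ← e.map_apply, LinearEquiv.symm_apply_apply]

/-- **(GS), strict-ordinary type.** -/
theorem gs_surj_strict (p : ℕ) [hp : Fact p.Prime] (hp2 : p ≠ 2) (Smin : Finset ℕ)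
    (hpSmin : p ∈ Smin) : GSFor p Smin (fun 𝒪 _ S' => 𝒟so 𝒪 p Smin S') := by
  intro 𝒪 _ _ _ _ _ ρbar habs good F hp𝒪 hdet hsplit hTW S T hSmin hTS hTdisj hmin bbar hscal φ₀ hφ₀
  obtain ⟨r, hr⟩ := tw_surj_strictFam p hp2 hp𝒪 ρbar habs hdet hsplit hTW S Smin T hpSmin hSmin hTS
    hTdisj hmin bbar hscal (tautEG F) (fun S' DQ φ _ => tautEG_bc F S' DQ φ)
    (fun S' ρ ρ' he h => tautEG_iso F S' ρ ρ' he h) φ₀ hφ₀
  refine ⟨r, fun n => ?_⟩
  obtain ⟨qv, hinj, hqv, hfrob, hDQ⟩ := hr n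
  refine ⟨qv, hinj, hqv, hfrob, fun hS' => ?_⟩
  obtain ⟨B, hB⟩ := exists_based (dqG habs F (Smin ∪ T ∪ Finset.univ.image qv) hS') bbar
  obtain ⟨h3, γ, hγ, h1, h2⟩ := hDQ (dqG habs F (Smin ∪ T ∪ Finset.univ.image qv) hS') B hB
  exact ⟨h3, B.bR, γ, hγ, h1, h2⟩

/-- **(GS), flat type.** -/
theorem gs_surj_flat (p : ℕ) [hp : Fact p.Prime] (hp2 : p ≠ 2) (Smin : Finset ℕ)
    (hpSmin : p ∈ Smin) : GSFor p Smin (fun 𝒪 _ S' => 𝒟fl 𝒪 p Smin S') := by
  intro 𝒪 _ _ _ _ _ ρbar habs good F hp𝒪 hdet hsplit hTW S T hSmin hTS hTdisj hmin bbar hscal φ₀ hφ₀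
  obtain ⟨r, hr⟩ := tw_surj_flatFam p hp2 hp𝒪 ρbar habs hdet hsplit hTW S Smin T hpSmin hSmin hTS
    hTdisj hmin bbar hscal (tautEG F) (fun S' DQ φ _ => tautEG_bc F S' DQ φ)
    (fun S' ρ ρ' he h => tautEG_iso F S' ρ ρ' he h) φ₀ hφ₀
  refine ⟨r, fun n => ?_⟩
  obtain ⟨qv, hinj, hqv, hfrob, hDQ⟩ := hr n
  refine ⟨qv, hinj, hqv, hfrob, fun hS' => ?_⟩
  obtain ⟨B, hB⟩ := exists_based (dqG habs F (Smin ∪ T ∪ Finset.univ.image qv) hS') bbar
  obtain ⟨h3, γ, hγ, h1, h2⟩ := hDQ (dqG habs F (Smin ∪ T ∪ Finset.univ.image qv) hS') B hB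
  exact ⟨h3, B.bR, γ, hγ, h1, h2⟩

end Fermat.Agent.S59lib.StrictFam
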